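/-
Programme T1B (row 38 / S44), cell NODE/PHI, Φ last mile (helper1, second of helper45):
**THE `sub_mem_J0` BINDER OF `Local66.Glue.localGeom_of_fields` FROM PER-LEVEL DATA.**

`c0 : TwoChart (Wb p K) B0 B1 B01`, `P00 E ≤ Pic X_{O_E}` a compatible family (`hPP`).

* `sub_mem_J0_top` : if at EVERY normal level `E`, for every inertia element `τ` and every class of
  `E`-points `x ∈ PtFam c0 E`, the class `τ x / x` extends to a class of `P00 E` over `O_E`, then
  `τ • x - x ∈ J0top` for every `x ∈ PtTop` — exactly the binder `sub_mem_J0` of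
  `Local66.Glue.localGeom_of_fields`;
* `sub_mem_J0_top_of_cofinal` : the same with the hypothesis on a COFINAL class of levels only;
* `galPic_eq_gE` : the bridge between `Desc1.galPic c0 τ'` (`τ' : E ≃ₐ[W] E` any automorphism acting
  as `τ ∈ I_p`) and `Bridge54.IpInst.gE c0 E hK τ`;
* `hlev_of_levelHyp` : the per-level hypothesis from `Node45.Phi.LevelHyp` at the level `E`
  (`LevelHyp.sub_mem`) for a nodal-good model over `O_E` whose `P00 hg X` lies in `P00 E`;
* `sub_mem_J0_top_of_levelHyp` : the binder from `LevelHyp` on a cofinal class of levels.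
-/
import Mathlib
import Fermat.Agent.T1B.Local66.Objects
import Fermat.Agent.T1B.Node45.Phi

set_option autoImplicit false
set_option linter.unusedSectionVars false
set_option linter.style.haveILetI false
set_option synthInstance.maxHeartbeats 400000
set_option maxHeartbeats 1000000

open TensorProduct

open Fermat.Agent.TW.B5.Iface Fermat.Agent.RED.Interface4 Fermat.Agent.T1.HubInst98
open Fermat.Agent.T1.IntSub47 Fermat.Agent.Jac Fermat.Agent.T1.RedIface75
open Fermat.Agent.T1.PtLine75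
open Fermat.Agent.T1B.Local66.LocalBase Fermat.Agent.T1B.Local66.Union
open Fermat.Agent.T1B.Local66.Objects
open Fermat.Agent.T1B.Plumb66.Inertia (Ip mem_Ip)
open Fermat.Agent.T1B.Bridge54.IpAction Fermat.Agent.T1B.Bridge54.IpInst
open Fermat.Agent.T1B.Bridge54.IpUnion
open Fermat.Agent.ES.P36.InertField27 (InertFixed)
open scoped Fermat.Agent.Jac.BaseChange75

noncomputable section

namespace Fermat.Agent.T1B.Phi1

variable {p : ℕ} [Fact p.Prime] {K : IntermediateField ℚ Qbar}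
  {B0 B1 B01 : Type} [CommRing B0] [CommRing B1] [CommRing B01]
  [Algebra (Wb p K) B0] [Algebra (Wb p K) B1] [Algebra (Wb p K) B01] [Algebra B0 B01]
  [Algebra B1 B01] [IsScalarTower (Wb p K) B0 B01] [IsScalarTower (Wb p K) B1 B01]
  (c0 : TwoChart (Wb p K) B0 B1 B01)

/-- The per-level statement: for every inertia element `τ` and every class of `E`-points `x`,
`τ x / x` extends to a class of `P00 E` over `O_E`. -/
def HLev (hK : InertFixed (padicPlace p) K) (P00 : ∀ E : NLevel p K, Subgroup (PicO c0 E))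
    (E : NLevel p K) : Prop :=
  ∀ (τ : ↥(Ip p)), ∀ x ∈ PtFam c0 E, ∃ z ∈ P00 E, bcOE c0 E z = gE c0 E hK τ x / x

section Top

variable [Nonempty (NLevel p K)]

/-- **The binder `sub_mem_J0` from the per-level statement on a cofinal class of levels.** -/
theorem sub_mem_J0_top_of_cofinal (hK : InertFixed (padicPlace p) K)
    (P00 : ∀ E : NLevel p K, Subgroup (PicO c0 E)) (hPP : Compatible c0 P00)
    (Good : NLevel p K → Prop) (hcof : ∀ E₀ : NLevel p K, ∃ E, E₀ ≤ E ∧ Good E)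
    (hlev : ∀ E, Good E → HLev c0 hK P00 E) :
    letI := actTop c0 hK
    ∀ τ : ↥(Ip p), ∀ x ∈ PtTop c0, τ • x - x ∈ J0top c0 P00 hPP := by
  letI := actTop c0 hK
  intro τ x hx
  obtain ⟨E₁, u₁, hu₁, rfl⟩ := (mem_PtTop c0).1 hx
  obtain ⟨E, hE, hgood⟩ := hcof E₁
  have hu : bcEE c0 hE u₁ ∈ PtFam c0 E := bcEE_mem_PtFam c0 hE hu₁
  obtain ⟨z, hz, hzu⟩ := hlev E hgood τ _ hu
  refine (mem_J0top c0 P00 hPP).2 ⟨E, z, hz, ?_⟩
  rw [actTop_smul_ofMul, ← bcE_bcOE, hzu, map_div, bcE_gE, bcE_bcEE]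
  rfl

/-- **The binder `sub_mem_J0` of `Local66.Glue.localGeom_of_fields` from the per-level statement.** -/
theorem sub_mem_J0_top (hK : InertFixed (padicPlace p) K)
    (P00 : ∀ E : NLevel p K, Subgroup (PicO c0 E)) (hPP : Compatible c0 P00)
    (hlev : ∀ (E : NLevel p K) (τ : ↥(Ip p)), ∀ x ∈ PtFam c0 E,
      ∃ z ∈ P00 E, bcOE c0 E z = gE c0 E hK τ x / x) :
    letI := actTop c0 hK
    ∀ τ : ↥(Ip p), ∀ x ∈ PtTop c0, τ • x - x ∈ J0top c0 P00 hPP :=
  sub_mem_J0_top_of_cofinal c0 hK P00 hPP (fun _ => True)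
    (fun E₀ => ⟨E₀, NLevel.le_refl E₀, trivial⟩) (fun E _ => hlev E)

end Top

/-! ### The bridge `galPic = gE` -/

/-- `Desc1.galPic c0 τ'` for an automorphism `τ' : E ≃ₐ[W] E` acting as `τ ∈ I_p` is
`Bridge54.IpInst.gE c0 E hK τ`. -/
theorem galPic_eq_gE (hK : InertFixed (padicPlace p) K) (E : NLevel p K) (τ : ↥(Ip p))
    (τ' : letI := algWE E.lev; ↥E.E ≃ₐ[Wb p K] ↥E.E)
    (hτ' : ∀ a : ↥E.E, τ' a = galE E.nor (τ : Gp p) a) (x : PicE c0 E) :
    (letI := algWE E.lev; Fermat.Agent.T1B.Desc1.galPic c0 τ' x) = gE c0 E hK τ x := by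
  letI := algWE E.lev
  letI := mulSemiringActionE E
  haveI := smulCommClass_W_E E hK
  have hf : ((τ' : ↥E.E ≃ₐ[Wb p K] ↥E.E) : ↥E.E →+* ↥E.E) =
      MulSemiringAction.toRingHom ↥(Ip p) ↥E.E τ := RingHom.ext fun a => hτ' a
  have haut : Fermat.Agent.T1.CentresClass47.chartAutRefl c0 = idChartAut c0 :=
    eq_idChartAut rfl rfl rfl rfl
  show Fermat.Agent.T1.GalAct44.actPic (Fermat.Agent.T1B.Desc1.trivAction c0 _)
    (Fermat.Agent.T1B.Desc1.algSemi c0 ↥E.E) τ' x = actPicLin c0 τ x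
  rw [Fermat.Agent.T1.GalAct44.actPic_apply, actPicLin_apply]
  have hsemi : ∀ (w : Wb p K) (a : ↥E.E),
      (MulSemiringAction.toRingHom ↥(Ip p) ↥E.E τ) (w • a) =
        (Fermat.Agent.T1.CentresClass47.chartAutRefl c0).σW w •
          (MulSemiringAction.toRingHom ↥(Ip p) ↥E.E τ) a := fun w a => smul_comm τ w a
  refine (Fermat.Agent.T1.Red20.BcSquare.PicX.mapSemi_congr
    (Fermat.Agent.T1.CentresClass47.chartAutRefl c0) hf _ hsemi x).trans ?_
  exact mapSemi_congr_aut haut _ _ _ x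

/-! ### The per-level statement from `Node45.Phi.LevelHyp` -/

section Level

open Fermat.Agent.T1B.Node45.Phi Fermat.Agent.T1B.RedN3 Fermat.Agent.T1B.Bal60

/-- `Node45.Phi.LevelHyp` at the level `E` (all the instances of the level installed): `π` a
uniformiser of `O_E`, `(τL g, τO g)` compatible `W`-automorphisms of `E`, `O_E`, `e` the ramification
index. -/
def LevelHypAt (E : NLevel p K) (π : ↥(intSubring p E.E)) {G : Type*}
    (τL : G → (letI := algWE E.lev; ↥E.E ≃ₐ[Wb p K] ↥E.E))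
    (τO : G → (letI := algWO E.lev; ↥(intSubring p E.E) ≃ₐ[Wb p K] ↥(intSubring p E.E)))
    (e : ℕ) : Prop :=
  letI := algWO E.lev
  letI := algWE E.lev
  letI := algOE E.E
  haveI := tower_W_O_E E.lev
  haveI := isDVR_O E.E
  haveI := isFractionRing_O_E E.E
  LevelHyp c0 ↥(intSubring p E.E) ↥E.E π τL τO e

/-- **The per-level statement `HLev` from `LevelHyp` at the level `E`**: `τL` acts as inertia
(`hτL`), `hg`, `X` a nodal-good model of the special fibre over `O_E` whose multidegree-zero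
subgroup lies in `P00 E`. -/
theorem hlev_of_levelHyp (hK : InertFixed (padicPlace p) K)
    (P00fam : ∀ E : NLevel p K, Subgroup (PicO c0 E)) (E : NLevel p K)
    {π : ↥(intSubring p E.E)} {e : ℕ}
    (τL : ↥(Ip p) → (letI := algWE E.lev; ↥E.E ≃ₐ[Wb p K] ↥E.E))
    (τO : ↥(Ip p) →
      (letI := algWO E.lev; ↥(intSubring p E.E) ≃ₐ[Wb p K] ↥(intSubring p E.E)))
    (hτL : ∀ (τ : ↥(Ip p)) (a : ↥E.E), τL τ a = galE E.nor (τ : Gp p) a)
    (H : LevelHypAt c0 E π τL τO e) {ι : Type}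
    (hg : letI := algWO E.lev; NodalGood (c0.baseChange ↥(intSubring p E.E)) π ι)
    {K' : Type} [Field K']
    (X : letI := algWO E.lev;
      ∀ i, Comp (c0.baseChange ↥(intSubring p E.E)) (hg.P0 i) (hg.P1 i) K')
    (hπ : haveI := isDVR_O E.E;
      IsLocalRing.maximalIdeal ↥(intSubring p E.E) = Ideal.span {π})
    (hP : (letI := algWO E.lev; P00 hg X) ≤ P00fam E) :
    HLev c0 hK P00fam E := by
  letI := algWO E.lev
  letI := algWE E.lev
  letI := algOE E.E
  haveI := tower_W_O_E E.lev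
  haveI := isDVR_O E.E
  haveI := isFractionRing_O_E E.E
  intro τ x hx
  have h := LevelHyp.sub_mem (c0 := c0) (O := ↥(intSubring p E.E)) (L := ↥E.E) H hg X hπ τ x hx
  obtain ⟨z, hz, hzx⟩ := h
  refine ⟨z, hP hz, ?_⟩
  rw [← galPic_eq_gE c0 hK E τ (τL τ) (hτL τ) x]
  exact hzx

/-- **The binder `sub_mem_J0` from `LevelHyp` on a cofinal class of levels.** -/
theorem sub_mem_J0_top_of_levelHyp [Nonempty (NLevel p K)] (hK : InertFixed (padicPlace p) K)
    (P00fam : ∀ E : NLevel p K, Subgroup (PicO c0 E)) (hPP : Compatible c0 P00fam)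
    (Good : NLevel p K → Prop) (hcof : ∀ E₀ : NLevel p K, ∃ E, E₀ ≤ E ∧ Good E)
    (hlev : ∀ E : NLevel p K, Good E →
      ∃ (π : ↥(intSubring p E.E)) (e : ℕ)
        (τL : ↥(Ip p) → (letI := algWE E.lev; ↥E.E ≃ₐ[Wb p K] ↥E.E))
        (τO : ↥(Ip p) →
          (letI := algWO E.lev; ↥(intSubring p E.E) ≃ₐ[Wb p K] ↥(intSubring p E.E)))
        (_ : ∀ (τ : ↥(Ip p)) (a : ↥E.E), τL τ a = galE E.nor (τ : Gp p) a)
        (_ : LevelHypAt c0 E π τL τO e) (ι : Type)
        (hg : letI := algWO E.lev; NodalGood (c0.baseChange ↥(intSubring p E.E)) π ι)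
        (K' : Type) (_ : Field K')
        (X : letI := algWO E.lev;
          ∀ i, Comp (c0.baseChange ↥(intSubring p E.E)) (hg.P0 i) (hg.P1 i) K'),
        (haveI := isDVR_O E.E;
          IsLocalRing.maximalIdeal ↥(intSubring p E.E) = Ideal.span {π}) ∧
        (letI := algWO E.lev; P00 hg X) ≤ P00fam E) :
    letI := actTop c0 hK
    ∀ τ : ↥(Ip p), ∀ x ∈ PtTop c0, τ • x - x ∈ J0top c0 P00fam hPP := by
  refine sub_mem_J0_top_of_cofinal c0 hK P00fam hPP Good hcof fun E hE => ?_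
  obtain ⟨π, e, τL, τO, hτL, H, ι, hg, K', _, X, hπ, hP⟩ := hlev E hE
  exact hlev_of_levelHyp c0 hK P00fam E τL τO hτL H hg X hπ hP

end Level

end Fermat.Agent.T1B.Phi1
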